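import Fermat.Agent.Density.Frobenius
import Fermat.Agent.Local.Minkowski

/-!
# Frobenius density in the absolute Galois group of `ℚ`
-/

set_option autoImplicit false

noncomputable section

open NumberField FA.Deform FA.Local
open scoped Pointwise Classical

namespace FA.Density

local notation "Qb" => AlgebraicClosure ℚ
local notation "GQ" => AlgebraicClosure ℚ ≃ₐ[ℚ] AlgebraicClosure ℚ

theorem sub_pow_mem_nonunits {A : ValuationSubring Qb} {σ : GQ} {q : ℕ}
    (h : A.IsFrobeniusAt σ q) {a : Qb} (ha : a ∈ A) : σ a - a ^ q ∈ A.nonunits := by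
  have h1 := h.smul_residue_eq (IsLocalRing.residue A ⟨a, ha⟩)
  rw [← IsLocalRing.ResidueField.residue_smul, ← map_pow, ← sub_eq_zero, ← map_sub,
    IsLocalRing.residue_eq_zero_iff, ← A.coe_mem_nonunits_iff] at h1
  exact h1

theorem isFrobeniusAt_of_forall {A : ValuationSubring Qb} {σ : GQ} {q : ℕ}
    (hd : σ ∈ A.decompositionSubgroup ℚ) (h : ∀ a ∈ A, σ a - a ^ q ∈ A.nonunits) :
    A.IsFrobeniusAt σ q := by
  refine ⟨hd, fun r => ?_⟩
  obtain ⟨⟨a, ha⟩, rfl⟩ := IsLocalRing.residue_surjective r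
  rw [← IsLocalRing.ResidueField.residue_smul, ← map_pow, ← sub_eq_zero, ← map_sub,
    IsLocalRing.residue_eq_zero_iff, ← A.coe_mem_nonunits_iff]
  exact h a ha

theorem mem_nonunits_smul_iff {A : ValuationSubring Qb} (τ : GQ) {y : Qb} :
    y ∈ (τ • A).nonunits ↔ τ⁻¹ y ∈ A.nonunits := by
  simp only [ValuationSubring.mem_nonunits_iff_or,
    ValuationSubring.mem_pointwise_smul_iff_inv_smul_mem, AlgEquiv.smul_def]
  rw [map_inv₀, map_eq_zero]

theorem isFrobeniusAt_smul {A : ValuationSubring Qb} {σ : GQ} {q : ℕ}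
    (h : A.IsFrobeniusAt σ q) (τ : GQ) : (τ • A).IsFrobeniusAt (τ * σ * τ⁻¹) q := by
  have hd : τ * σ * τ⁻¹ ∈ (τ • A).decompositionSubgroup ℚ := by
    rw [MulAction.mem_stabilizer_iff, mul_smul, mul_smul, inv_smul_smul,
      MulAction.mem_stabilizer_iff.mp h.mem_decompositionSubgroup]
  refine isFrobeniusAt_of_forall hd fun a ha => ?_
  rw [ValuationSubring.mem_pointwise_smul_iff_inv_smul_mem, AlgEquiv.smul_def] at ha
  rw [mem_nonunits_smul_iff, map_sub, map_pow]
  convert sub_pow_mem_nonunits h ha using 2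
  simp [AlgEquiv.mul_apply, AlgEquiv.aut_inv]

theorem liesOverPrime_smul {A : ValuationSubring Qb} {q : ℕ} (h : A.LiesOverPrime q) (τ : GQ) :
    (τ • A).LiesOverPrime q := by
  rw [ValuationSubring.LiesOverPrime, mem_nonunits_smul_iff, map_natCast]
  exact h

/-- A choice of Frobenius elements gives a Frobenius system on every finite Galois extension. -/
def frobSystem (F : IntermediateField ℚ Qb) [FiniteDimensional ℚ F] [IsGalois ℚ F]
    [NumberField F] (A : ℕ → ValuationSubring Qb) (σ : ℕ → GQ)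
    (hA : ∀ q, q.Prime → (A q).LiesOverPrime q ∧ (A q).IsFrobeniusAt (σ q) q) :
    FrobSystem F where
  frob q := (σ q).restrictNormal F
  excluded := (exists_unramified F).choose.divisors
  spec q hq hex := by
    obtain ⟨hm0, hm⟩ := (exists_unramified F).choose_spec
    have hqm : ¬ q ∣ (exists_unramified F).choose := fun h =>
      hex (Nat.mem_divisors.mpr ⟨h, hm0⟩)
    obtain ⟨hAq, hσ⟩ := hA q hq
    let P : Ideal (𝓞 F) := (primeAt (A q)).comap (intIncl F)
    have hqP : (q : 𝓞 F) ∈ P := by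
      show intIncl F q ∈ primeAt (A q)
      rw [map_natCast, mem_primeAt]
      exact hAq
    have hP : P.IsPrime := Ideal.comap_isPrime _ _
    have hP0 : P ≠ ⊥ := fun h => by
      rw [h, Ideal.mem_bot] at hqP
      exact hq.ne_zero (by exact_mod_cast hqP)
    have hPmax : P.IsMaximal := hP.isMaximal hP0
    refine ⟨P, hq, hPmax, hqP, hm q P hq hPmax hqP hqm, fun y => ?_⟩
    show intIncl F (((σ q).restrictNormal F) • y - y ^ q) ∈ primeAt (A q)
    rw [mem_primeAt]
    have e : ((intIncl F (((σ q).restrictNormal F) • y - y ^ q) : ZBar) : Qb) =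
        σ q ((y : F) : Qb) - ((y : F) : Qb) ^ q := by
      rw [coe_intIncl]
      show ((((σ q).restrictNormal F) (y : F) - (y : F) ^ q : F) : Qb) = _
      push_cast
      congr 1
      exact AlgEquiv.restrictNormal_commutes (σ q) F (y : F)
    rw [e]
    exact sub_pow_mem_nonunits hσ (zbar_mem_valuationSubring (A q) (intIncl F y))

/-- Frobenius' density theorem: up to a normal subgroup of finite index, every element generates
the same subgroup as a Frobenius element at infinitely many primes. -/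
theorem exists_frobenius_generating (N : Subgroup GQ) [hNn : N.Normal] (hN : IsOpen (N : Set GQ))
    (s : GQ) (S : Finset ℕ) :
    ∃ (q : ℕ) (A : ValuationSubring Qb) (σ : GQ) (k : ℕ), q.Prime ∧ q ∉ S ∧
      A.LiesOverPrime q ∧ A.IsFrobeniusAt σ q ∧ (σ ^ k)⁻¹ * s ∈ N ∧
      ∃ j : ℕ, (s ^ j)⁻¹ * σ ∈ N := by
  let F : IntermediateField ℚ Qb := IntermediateField.fixedField N
  have hFN : F.fixingSubgroup = N :=
    InfiniteGalois.fixingSubgroup_fixedField ⟨N, Subgroup.isClosed_of_isOpen N hN⟩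
  have hFnorm : F.fixingSubgroup.Normal := hFN.symm ▸ hNn
  have hFgal : IsGalois ℚ F := (InfiniteGalois.normal_iff_isGalois F).mp hFnorm
  have hFfin : FiniteDimensional ℚ F :=
    (InfiniteGalois.isOpen_iff_finite F).mp (by rw [hFN]; exact hN)
  have : NumberField F := { }
  have hex : ∀ q : ℕ, ∃ A : ValuationSubring Qb, ∃ σ : GQ, q.Prime →
      A.LiesOverPrime q ∧ A.IsFrobeniusAt σ q := fun q => by
    by_cases hq : q.Prime
    · obtain ⟨A, hA⟩ := exists_liesOverPrime hq
      obtain ⟨σ, hσ⟩ := exists_isFrobeniusAt hq hA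
      exact ⟨A, σ, fun _ => ⟨hA, hσ⟩⟩
    · exact ⟨⊤, 1, fun h => absurd h hq⟩
  choose A σ hAσ using hex
  let r : GQ →* (F ≃ₐ[ℚ] F) := AlgEquiv.restrictNormalHom F
  have hker : r.ker = N := (IntermediateField.restrictNormalHom_ker F).trans hFN
  obtain ⟨q, hq, hqS, -, x, hx⟩ := (frobSystem F A σ hAσ).exists_generating (r s) S
  obtain ⟨τ, rfl⟩ := AlgEquiv.restrictNormalHom_surjective (F := ℚ) (K₁ := F) Qb x
  have hconj : r τ * (frobSystem F A σ hAσ).frob q * (r τ)⁻¹ = r (τ * σ q * τ⁻¹) := by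
    rw [map_mul, map_mul, map_inv]
    rfl
  rw [hconj] at hx
  have hfinord : IsOfFinOrder (r (τ * σ q * τ⁻¹)) := isOfFinOrder_of_finite _
  obtain ⟨k, hk⟩ : ∃ k : ℕ, r (τ * σ q * τ⁻¹) ^ k = r s := by
    have := hx.symm ▸ Subgroup.mem_zpowers (r s)
    exact (hfinord.mem_powers_iff_mem_zpowers.mpr this).imp fun _ h => h
  obtain ⟨j, hj⟩ : ∃ j : ℕ, r s ^ j = r (τ * σ q * τ⁻¹) := by
    have := hx ▸ Subgroup.mem_zpowers (r (τ * σ q * τ⁻¹))
    exact ((isOfFinOrder_of_finite (r s)).mem_powers_iff_mem_zpowers.mpr this).imp fun _ h => h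
  obtain ⟨hA, hσ⟩ := hAσ q hq
  refine ⟨q, τ • A q, τ * σ q * τ⁻¹, k, hq, hqS, liesOverPrime_smul hA τ,
    isFrobeniusAt_smul hσ τ, ?_, j, ?_⟩
  · rw [← hker, MonoidHom.mem_ker, map_mul, map_inv, map_pow, hk, inv_mul_cancel]
  · rw [← hker, MonoidHom.mem_ker, map_mul, map_inv, map_pow, hj, inv_mul_cancel]

/-- A property invariant under an open normal subgroup holds everywhere as soon as it holds for
the powers of almost all Frobenius elements. -/
theorem forall_of_frobenius_pow (N : Subgroup GQ) [N.Normal] (hN : IsOpen (N : Set GQ))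
    (Φ : GQ → Prop) (hΦN : ∀ σ, ∀ n ∈ N, Φ σ → Φ (σ * n)) (S : Finset ℕ)
    (hΦ : ∀ q : ℕ, q.Prime → q ∉ S → ∀ A : ValuationSubring Qb, A.LiesOverPrime q →
      ∀ σ : GQ, A.IsFrobeniusAt σ q → ∀ k : ℕ, Φ (σ ^ k)) (s : GQ) : Φ s := by
  obtain ⟨q, A, σ, k, hq, hqS, hA, hσ, hk, -⟩ := exists_frobenius_generating N hN s S
  have := hΦN _ _ hk (hΦ q hq hqS A hA σ hσ k)
  rwa [mul_inv_cancel_left] at this

end FA.Density
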