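import Fermat.Agent.Density.Places
import Mathlib.LinearAlgebra.Matrix.Charpoly.Coeff

/-!
# Galois representations are determined by Frobenius elements
-/

set_option autoImplicit false

noncomputable section

open scoped Pointwise

namespace FA.Density

local notation "Qb" => AlgebraicClosure ℚ
local notation "GQ" => AlgebraicClosure ℚ ≃ₐ[ℚ] AlgebraicClosure ℚ

/-- Two homomorphisms with open kernels agreeing at almost all Frobenius elements are equal. -/
theorem monoidHom_eq_of_frobenius {M : Type*} [Monoid M] (f g : GQ →* M)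
    (hf : IsOpen (f.ker : Set GQ)) (hg : IsOpen (g.ker : Set GQ)) (S : Finset ℕ)
    (h : ∀ q : ℕ, q.Prime → q ∉ S → ∀ A : ValuationSubring Qb, A.LiesOverPrime q →
      ∀ σ : GQ, A.IsFrobeniusAt σ q → f σ = g σ) : f = g := by
  have hN : IsOpen ((f.ker ⊓ g.ker : Subgroup GQ) : Set GQ) := by
    rw [Subgroup.coe_inf]; exact hf.inter hg
  refine MonoidHom.ext fun s => forall_of_frobenius_pow (f.ker ⊓ g.ker) hN (fun σ => f σ = g σ)
    (fun σ n hn hσ => ?_) S (fun q hq hqS A hA σ hσ k => ?_) s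
  · show f (σ * n) = g (σ * n)
    rw [map_mul, map_mul, MonoidHom.mem_ker.mp hn.1, MonoidHom.mem_ker.mp hn.2, hσ]
  · show f (σ ^ k) = g (σ ^ k)
    rw [map_pow, map_pow, h q hq hqS A hA σ hσ]

/-- Trace and determinant of powers of a `2 × 2` matrix depend only on trace and determinant. -/
theorem trace_det_pow_eq {R : Type*} [CommRing R] {A B : Matrix (Fin 2) (Fin 2) R}
    (ht : A.trace = B.trace) (hd : A.det = B.det) (k : ℕ) :
    (A ^ k).trace = (B ^ k).trace ∧ (A ^ k).det = (B ^ k).det := by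
  refine ⟨?_, by rw [Matrix.det_pow, Matrix.det_pow, hd]⟩
  have hrec : ∀ (M : Matrix (Fin 2) (Fin 2) R) (n : ℕ),
      (M ^ (n + 2)).trace = M.trace * (M ^ (n + 1)).trace - M.det * (M ^ n).trace := by
    intro M n
    have hsq : M * M = M.trace • M - M.det • (1 : Matrix (Fin 2) (Fin 2) R) := by
      ext i j
      fin_cases i <;> fin_cases j <;>
        simp [Matrix.mul_apply, Fin.sum_univ_two, Matrix.trace_fin_two, Matrix.det_fin_two] <;>
        ring
    have h2 : M ^ (n + 2) = M ^ n * (M * M) := by rw [pow_add, pow_two]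
    rw [h2, hsq, mul_sub, mul_smul_comm, mul_smul_comm, mul_one, ← pow_succ, Matrix.trace_sub,
      Matrix.trace_smul, Matrix.trace_smul, smul_eq_mul, smul_eq_mul]
  induction k using Nat.twoStepInduction with
  | zero => simp
  | one => simpa using ht
  | more n ih1 ih2 => rw [hrec, hrec, ht, hd, ih1, ih2]

/-- Two `2`-dimensional representations with open kernels having the same trace and determinant
at almost all Frobenius elements have the same trace and determinant everywhere. -/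
theorem trace_det_eq_of_frobenius {R : Type*} [CommRing R]
    (ρ₁ ρ₂ : GQ →* Matrix (Fin 2) (Fin 2) R)
    (h₁ : IsOpen (ρ₁.ker : Set GQ)) (h₂ : IsOpen (ρ₂.ker : Set GQ)) (S : Finset ℕ)
    (h : ∀ q : ℕ, q.Prime → q ∉ S → ∀ A : ValuationSubring Qb, A.LiesOverPrime q →
      ∀ σ : GQ, A.IsFrobeniusAt σ q →
        (ρ₁ σ).trace = (ρ₂ σ).trace ∧ (ρ₁ σ).det = (ρ₂ σ).det) (s : GQ) :
    (ρ₁ s).trace = (ρ₂ s).trace ∧ (ρ₁ s).det = (ρ₂ s).det := by
  have hN : IsOpen ((ρ₁.ker ⊓ ρ₂.ker : Subgroup GQ) : Set GQ) := by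
    rw [Subgroup.coe_inf]; exact h₁.inter h₂
  refine forall_of_frobenius_pow (ρ₁.ker ⊓ ρ₂.ker) hN
    (fun σ => (ρ₁ σ).trace = (ρ₂ σ).trace ∧ (ρ₁ σ).det = (ρ₂ σ).det)
    (fun σ n hn hσ => ?_) S (fun q hq hqS A hA σ hσ k => ?_) s
  · rw [map_mul, map_mul, MonoidHom.mem_ker.mp hn.1, MonoidHom.mem_ker.mp hn.2, mul_one, mul_one]
    exact hσ
  · rw [map_pow, map_pow]
    exact trace_det_pow_eq (h q hq hqS A hA σ hσ).1 (h q hq hqS A hA σ hσ).2 k

end FA.Density
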