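import Fermat.Agent.Deform.Burnside
import Mathlib.Algebra.MonoidAlgebra.Basic
import Mathlib.LinearAlgebra.Matrix.Trace
import Mathlib.LinearAlgebra.Matrix.ToLin
import Mathlib.RingTheory.LocalRing.ResidueField.Basic
import Mathlib.RingTheory.Nakayama
import Mathlib.RingTheory.OrzechProperty
import Mathlib.LinearAlgebra.Dimension.StrongRankCondition
import Mathlib.LinearAlgebra.Matrix.ToLinearEquiv
import Mathlib.FieldTheory.IsAlgClosed.AlgebraicClosure

/-!
# Representations determined by their traces (Brauer–Nesbitt, Carayol, Serre)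
-/

set_option autoImplicit false

noncomputable section

open Matrix IsLocalRing

namespace FA.Density

local notation "M2" => Matrix (Fin 2) (Fin 2)

variable {G : Type*} [Monoid G]

/-- A representation without invariant line over an algebraically closed field spans all
matrices. -/
theorem span_range_eq_top {k : Type*} [Field k] (ρ : G →* M2 k) (L : Type*) [Field L]
    [IsAlgClosed L] [Algebra k L]
    (hirr : ∀ v : Fin 2 → L, v ≠ 0 →
      ∃ g, ∀ c : L, (ρ g).map (algebraMap k L) *ᵥ v ≠ c • v) :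
    Submodule.span k (Set.range ρ) = ⊤ := by
  let f : M2 k →ₐ[k] M2 L := (Algebra.ofId k L).mapMatrix
  set S := Submodule.span k (Set.range ρ)
  have hL : Submodule.span L (f '' Set.range ρ) = ⊤ := by
    refine FA.Deform.eq_top_of_no_invariant_line _
      (Submodule.subset_span ⟨1, ⟨1, map_one ρ⟩, map_one f⟩) (fun a ha b hb => ?_) (fun v hv => ?_)
    · refine Submodule.span_induction₂ (p := fun x y _ _ => x * y ∈ Submodule.span L (f '' Set.range ρ))
        ?_ ?_ ?_ ?_ ?_ ?_ ?_ ha hb
      · rintro _ _ ⟨_, ⟨g, rfl⟩, rfl⟩ ⟨_, ⟨h, rfl⟩, rfl⟩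
        exact Submodule.subset_span ⟨_, ⟨g * h, map_mul ρ g h⟩, map_mul f _ _⟩
      · intro y _; rw [zero_mul]; exact Submodule.zero_mem _
      · intro x _; rw [mul_zero]; exact Submodule.zero_mem _
      · intro x y z _ _ _ h1 h2; rw [add_mul]; exact Submodule.add_mem _ h1 h2
      · intro x y z _ _ _ h1 h2; rw [mul_add]; exact Submodule.add_mem _ h1 h2
      · intro r x y _ _ h; rw [smul_mul_assoc]; exact Submodule.smul_mem _ r h
      · intro r x y _ _ h; rw [mul_smul_comm]; exact Submodule.smul_mem _ r h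
    · obtain ⟨g, hg⟩ := hirr v hv
      exact ⟨f (ρ g), Submodule.subset_span ⟨_, ⟨g, rfl⟩, rfl⟩, hg⟩
  refine Submodule.eq_top_of_finrank_eq (le_antisymm (Submodule.finrank_le S) ?_)
  let b := Module.finBasis k S
  have hle : Submodule.span L (f '' Set.range ρ) ≤
      Submodule.span L (Set.range fun i => f (b i : M2 k)) := by
    refine Submodule.span_le.mpr ?_
    rintro _ ⟨x, hx, rfl⟩
    have hsum := congrArg Subtype.val (b.sum_repr ⟨x, Submodule.subset_span hx⟩)
    simp only [AddSubmonoidClass.coe_finsetSum, SetLike.val_smul] at hsum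
    rw [← hsum, map_sum]
    refine Submodule.sum_mem _ fun i _ => ?_
    rw [map_smul, ← IsScalarTower.algebraMap_smul L]
    exact Submodule.smul_mem _ _ (Submodule.subset_span ⟨i, rfl⟩)
  have h4 := finrank_range_le_card (R := L) fun i => f (b i : M2 k)
  rw [Set.finrank, eq_top_iff.mpr (hL.ge.trans hle), finrank_top, Module.finrank_matrix,
    Fintype.card_fin] at h4
  rw [Module.finrank_matrix, Module.finrank_self, Fintype.card_fin]
  simpa using h4

variable {A : Type*} [CommRing A] [IsLocalRing A]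

/-- Spanning may be checked residually. -/
theorem span_range_eq_top_of_residue (ρ : G →* M2 A)
    (h : Submodule.span (ResidueField A) (Set.range fun g => (ρ g).map (residue A)) = ⊤) :
    Submodule.span A (Set.range ρ) = ⊤ := by
  refine eq_top_iff.mpr (Submodule.le_of_le_smul_of_le_jacobson_bot (I := maximalIdeal A)
    Module.Finite.fg_top (IsLocalRing.maximalIdeal_le_jacobson ⊥) fun X _ => ?_)
  set S := Submodule.span A (Set.range ρ)
  have key : ∀ Y ∈ Submodule.span (ResidueField A) (Set.range fun g => (ρ g).map (residue A)),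
      ∃ Z ∈ S, Z.map (residue A) = Y := by
    intro Y hY
    induction hY using Submodule.span_induction with
    | mem Y hY => obtain ⟨g, rfl⟩ := hY; exact ⟨ρ g, Submodule.subset_span ⟨g, rfl⟩, rfl⟩
    | zero => exact ⟨0, Submodule.zero_mem _, by ext; simp⟩
    | add Y Y' _ _ h1 h2 =>
      obtain ⟨Z, hZ, rfl⟩ := h1
      obtain ⟨Z', hZ', rfl⟩ := h2
      exact ⟨Z + Z', Submodule.add_mem _ hZ hZ', Matrix.map_add _ (map_add _) _ _⟩
    | smul r Y _ h1 =>
      obtain ⟨Z, hZ, rfl⟩ := h1
      obtain ⟨a, rfl⟩ := residue_surjective r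
      exact ⟨a • Z, Submodule.smul_mem _ _ hZ, by ext i j; simp⟩
  obtain ⟨Z, hZ, hZX⟩ := key (X.map (residue A)) (by rw [h]; trivial)
  refine Submodule.mem_sup.mpr ⟨Z, hZ, X - Z, ?_, add_sub_cancel Z X⟩
  rw [Matrix.matrix_eq_sum_single (X - Z)]
  refine Submodule.sum_mem _ fun i _ => Submodule.sum_mem _ fun j _ => ?_
  rw [show Matrix.single i j ((X - Z) i j) = ((X - Z) i j) • Matrix.single i j 1 by simp]
  refine Submodule.smul_mem_smul ?_ Submodule.mem_top
  rw [← IsLocalRing.residue_eq_zero_iff, Matrix.sub_apply, map_sub]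
  have := congrFun (congrFun hZX i) j
  simp only [Matrix.map_apply] at this
  rw [this, sub_self]

/-- Two representations with the same trace, one of which spans all matrices, are conjugate. -/
theorem exists_conj_of_trace_eq (ρ₁ ρ₂ : G →* M2 A)
    (hspan : Submodule.span A (Set.range ρ₁) = ⊤)
    (htr : ∀ g, (ρ₁ g).trace = (ρ₂ g).trace) :
    ∃ P : M2 A, IsUnit P.det ∧ ∀ g, ρ₂ g * P = P * ρ₁ g := by
  classical
  let T₁ : MonoidAlgebra A G →ₐ[A] M2 A := MonoidAlgebra.lift A (M2 A) G ρ₁
  let T₂ : MonoidAlgebra A G →ₐ[A] M2 A := MonoidAlgebra.lift A (M2 A) G ρ₂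
  have hT₁ : Function.Surjective T₁ := by
    refine (LinearMap.range_eq_top (f := T₁.toLinearMap)).mp ?_
    rw [eq_top_iff, ← hspan, Submodule.span_le]
    rintro _ ⟨g, rfl⟩
    exact ⟨MonoidAlgebra.of A G g, MonoidAlgebra.lift_of _ _⟩
  have htrT : ∀ c, (T₁ c).trace = (T₂ c).trace := fun c => by
    induction c using MonoidAlgebra.induction_on with
    | of g => simp only [T₁, T₂, MonoidAlgebra.lift_of]; exact htr g
    | add a b ha hb => rw [map_add, map_add, Matrix.trace_add, Matrix.trace_add, ha, hb]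
    | smul r a ha => rw [map_smul, map_smul, Matrix.trace_smul, Matrix.trace_smul, ha]
  choose c hc using fun ij : Fin 2 × Fin 2 => hT₁ (Matrix.single ij.1 ij.2 (1 : A))
  -- the trace form detects zero on the image of the second representation
  let Λ : M2 A →ₗ[A] (Fin 2 × Fin 2 → A) :=
    LinearMap.pi fun ij => (Matrix.traceLinearMap (Fin 2) A A).comp
      (LinearMap.mulRight A (T₂ (c (ij.2, ij.1))))
  let Θ : (Fin 2 × Fin 2 → A) →ₗ[A] M2 A :=
    ∑ ij : Fin 2 × Fin 2, (LinearMap.proj ij).smulRight (T₂ (c ij))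
  have hΛΘ : ∀ a, Λ (Θ a) = a := fun a => funext fun ij => by
    simp only [Λ, Θ, LinearMap.pi_apply, LinearMap.comp_apply, LinearMap.mulRight_apply,
      Matrix.traceLinearMap_apply, LinearMap.sum_apply, LinearMap.smulRight_apply,
      LinearMap.proj_apply, Finset.sum_mul, Matrix.trace_sum, smul_mul_assoc, Matrix.trace_smul,
      smul_eq_mul]
    simp only [← map_mul, ← htrT]
    simp only [map_mul, hc]
    rcases ij with ⟨i, j⟩
    rw [Fintype.sum_prod_type, Fin.sum_univ_two, Fin.sum_univ_two, Fin.sum_univ_two]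
    fin_cases i <;> fin_cases j <;> simp [Matrix.trace_fin_two, Matrix.mul_apply, Fin.sum_univ_two]
  have hΛ : Function.Injective Λ := by
    let e : (Fin 2 × Fin 2 → A) ≃ₗ[A] M2 A :=
      (LinearEquiv.curry A A (Fin 2) (Fin 2)).trans (Matrix.ofLinearEquiv A)
    have hs : Function.Surjective (e.toLinearMap.comp Λ) :=
      fun y => ⟨Θ (e.symm y), by rw [LinearMap.comp_apply, hΛΘ, LinearEquiv.coe_coe,
        LinearEquiv.apply_symm_apply]⟩
    exact Function.Injective.of_comp (f := e) (by
      simpa using OrzechProperty.injective_of_surjective_endomorphism _ hs)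
  have hker : ∀ a, T₁ a = 0 → T₂ a = 0 := fun a ha => hΛ (by
    rw [map_zero]
    funext ij
    show (T₂ a * T₂ (c (ij.2, ij.1))).trace = 0
    rw [← map_mul, ← htrT, map_mul, ha, zero_mul, Matrix.trace_zero])
  have hwd : ∀ a b, T₁ a = T₁ b → T₂ a = T₂ b := fun a b hab =>
    sub_eq_zero.mp (by rw [← map_sub]; exact hker _ (by rw [map_sub, hab, sub_self]))
  set f := fun i j => T₂ (c (i, j))
  have hf : ∀ i j k, f i j * f j k = f i k := fun i j k => by
    rw [← map_mul]
    refine hwd _ _ ?_
    rw [map_mul, hc, hc, hc, Matrix.single_mul_single_same, mul_one]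
  have hf0 : ∀ i j k l, j ≠ k → f i j * f k l = 0 := fun i j k l hjk => by
    rw [← map_mul]
    refine hker _ ?_
    rw [map_mul, hc, hc, Matrix.single_mul_single_of_ne (h := hjk)]
  have htr00 : (f 0 0).trace = 1 := by
    rw [← htrT, hc, Matrix.trace_single_eq_same]
  obtain ⟨i, hi⟩ : ∃ i, IsUnit (f 0 0 i i) := by
    rw [Matrix.trace_fin_two] at htr00
    rcases IsLocalRing.isUnit_or_isUnit_of_add_one htr00 with h | h
    · exact ⟨0, h⟩
    · exact ⟨1, h⟩
  set u := f 0 0 *ᵥ Pi.single i 1
  set w := f 1 0 *ᵥ Pi.single i 1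
  let P : M2 A := !![u 0, w 0; u 1, w 1]
  have hu : IsUnit (u i) := by simpa [u, Matrix.mulVec_single] using hi
  have hfu : ∀ a b, f a b *ᵥ u = (if b = 0 then f a 0 *ᵥ Pi.single i 1 else 0) := fun a b => by
    simp only [u, Matrix.mulVec_mulVec]
    split_ifs with h
    · subst h; rw [hf]
    · rw [hf0 _ _ _ _ h, Matrix.zero_mulVec]
  have hfw : ∀ a b, f a b *ᵥ w = (if b = 1 then f a 0 *ᵥ Pi.single i 1 else 0) := fun a b => by
    simp only [w, Matrix.mulVec_mulVec]
    split_ifs with h
    · subst h; rw [hf]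
    · rw [hf0 _ _ _ _ h, Matrix.zero_mulVec]
  have hP : IsUnit P.det := by
    refine (inferInstance : IsLocalHom (residue A)).map_nonunit _ ?_
    rw [RingHom.map_det, isUnit_iff_ne_zero]
    intro h0
    obtain ⟨x, hx, hxP⟩ := Matrix.exists_mulVec_eq_zero_iff.mpr h0
    have hP' : ∀ j, residue A (u j) * x 0 + residue A (w j) * x 1 = 0 := fun j => by
      have := congrFun hxP j
      fin_cases j <;> simpa [P, Matrix.mulVec, dotProduct, Fin.sum_univ_two, RingHom.mapMatrix_apply]
        using this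
    obtain ⟨a, ha⟩ := residue_surjective (x 0)
    obtain ⟨b, hb⟩ := residue_surjective (x 1)
    have hv : ∀ j, a * u j + b * w j ∈ maximalIdeal A := fun j => by
      rw [← IsLocalRing.residue_eq_zero_iff, map_add, map_mul, map_mul, ha, hb]
      linear_combination hP' j
    have hmv : ∀ (M : M2 A) (j : Fin 2), (M *ᵥ (a • u + b • w)) j ∈ maximalIdeal A := fun M j => by
      rw [Matrix.mulVec, dotProduct]
      exact Ideal.sum_mem _ fun l _ => Ideal.mul_mem_left _ _ (by simpa using hv l)
    have ha0 := hmv (f 0 0) i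
    rw [Matrix.mulVec_add, Matrix.mulVec_smul, Matrix.mulVec_smul, hfu, hfw] at ha0
    simp only [if_true, zero_ne_one, if_false, smul_zero, add_zero, Pi.smul_apply, smul_eq_mul] at ha0
    have hb0 := hmv (f 0 1) i
    rw [Matrix.mulVec_add, Matrix.mulVec_smul, Matrix.mulVec_smul, hfu, hfw] at hb0
    simp only [one_ne_zero, if_true, if_false, smul_zero, zero_add, Pi.smul_apply, smul_eq_mul] at hb0
    have : ∀ t, t * u i ∈ maximalIdeal A → residue A t = 0 := fun t ht =>
      (IsLocalRing.residue_eq_zero_iff _).mpr ((Ideal.mul_unit_mem_iff_mem _ hu).mp ht)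
    exact hx (funext fun j => by
      fin_cases j
      · show x 0 = 0; rw [← ha]; exact this a ha0
      · show x 1 = 0; rw [← hb]; exact this b hb0)
  refine ⟨P, hP, fun g => ?_⟩
  have hexp : ρ₂ g = ∑ a : Fin 2, ∑ b : Fin 2, ρ₁ g a b • f a b := by
    rw [show ρ₂ g = T₂ (MonoidAlgebra.of A G g) from (MonoidAlgebra.lift_of _ _).symm]
    simp only [f, ← map_smul, ← map_sum]
    refine hwd _ _ ?_
    simp only [map_sum, map_smul, hc, T₁, MonoidAlgebra.lift_of]
    conv_lhs => rw [Matrix.matrix_eq_sum_single (ρ₁ g)]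
    refine Finset.sum_congr rfl fun a _ => Finset.sum_congr rfl fun b _ => ?_
    simp
  have hcol : ∀ (M : M2 A) (j : Fin 2), (M * P) j 0 = (M *ᵥ u) j ∧ (M * P) j 1 = (M *ᵥ w) j :=
    fun M j => by
      constructor <;> simp [P, Matrix.mul_apply, Matrix.mulVec, dotProduct, Fin.sum_univ_two]
  ext j l
  have h0 : (ρ₂ g *ᵥ u) j = ρ₁ g 0 0 * u j + ρ₁ g 1 0 * w j := by
    rw [hexp]
    simp only [Fin.sum_univ_two, Matrix.add_mulVec, Matrix.smul_mulVec, hfu]
    simp [u, w]
  have h1 : (ρ₂ g *ᵥ w) j = ρ₁ g 0 1 * u j + ρ₁ g 1 1 * w j := by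
    rw [hexp]
    simp only [Fin.sum_univ_two, Matrix.add_mulVec, Matrix.smul_mulVec, hfw]
    simp [u, w]
  fin_cases l
  · refine ((hcol _ j).1.trans h0).trans ?_
    fin_cases j <;> simp [P, Matrix.mul_apply, Fin.sum_univ_two] <;> ring
  · refine ((hcol _ j).2.trans h1).trans ?_
    fin_cases j <;> simp [P, Matrix.mul_apply, Fin.sum_univ_two] <;> ring

end FA.Density
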