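import Fermat.Agent.Density.Split

/-!
# Frobenius' density theorem

For a finite Galois extension `F/ℚ` and every automorphism `s`, infinitely many primes have a
Frobenius element generating the same cyclic group as `s`, up to conjugation.
-/

set_option autoImplicit false

noncomputable section

open NumberField IsDedekindDomain FA.Ext
open scoped Pointwise Classical

namespace FA.Density

variable {F : Type*} [Field F] [NumberField F] [IsGalois ℚ F]

/-- The number of conjugates of `g` in a set. -/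
def conjCount {G : Type*} [Group G] [Fintype G] (S : Set G) (g : G) : ℕ :=
  (Finset.univ.filter fun x : G => x * g * x⁻¹ ∈ S).card

/-- Elements generating a given subgroup. -/
def gens {G : Type*} [Group G] (D : Subgroup G) : Set G := {z | Subgroup.zpowers z = D}

theorem conjCount_le {G : Type*} [Group G] [Fintype G] (S : Set G) (g : G) :
    conjCount S g ≤ Fintype.card G := Finset.card_le_univ _

theorem sum_conjCount {G : Type*} [Group G] [Fintype G] (D : Subgroup G) (g : G) :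
    (conjCount (D : Set G) g : ℝ) =
      ∑ E ∈ Finset.univ.filter (fun E : Subgroup G => E ≤ D), (conjCount (gens E) g : ℝ) := by
  rw [← Nat.cast_sum, Nat.cast_inj]
  rw [conjCount, Finset.card_eq_sum_card_fiberwise (f := fun x => Subgroup.zpowers (x * g * x⁻¹))
    (t := Finset.univ.filter fun E : Subgroup G => E ≤ D) (fun x hx => by
      simp only [Finset.coe_filter, Finset.mem_univ, true_and, Set.mem_ofPred_eq] at hx ⊢
      exact Subgroup.zpowers_le.mpr hx)]
  refine Finset.sum_congr rfl fun E hE => congrArg Finset.card ?_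
  ext x
  simp only [Finset.mem_filter, Finset.mem_univ, true_and] at hE ⊢
  exact ⟨fun h => h.2, fun h => ⟨hE ((h : Subgroup.zpowers _ = E) ▸ Subgroup.mem_zpowers _), h⟩⟩

theorem natCard_eq_sum_gens {G : Type*} [Group G] [Fintype G] (D : Subgroup G) :
    (Nat.card D : ℝ) =
      ∑ E ∈ Finset.univ.filter (fun E : Subgroup G => E ≤ D), (Nat.card (gens E) : ℝ) := by
  rw [← Nat.cast_sum, Nat.cast_inj]
  rw [Nat.card_eq_fintype_card, Fintype.card_subtype (fun x => x ∈ D),
    Finset.card_eq_sum_card_fiberwise (f := fun x => Subgroup.zpowers x)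
    (t := Finset.univ.filter fun E : Subgroup G => E ≤ D) (fun x hx => by
      simp only [Finset.coe_filter, Finset.mem_univ, true_and, Set.mem_ofPred_eq] at hx ⊢
      exact Subgroup.zpowers_le.mpr hx)]
  refine Finset.sum_congr rfl fun E hE => ?_
  rw [Nat.card_eq_fintype_card, Fintype.card_subtype (fun x => x ∈ gens E)]
  refine congrArg Finset.card ?_
  ext x
  simp only [Finset.mem_filter, Finset.mem_univ, true_and] at hE ⊢
  exact ⟨fun h => h.2, fun h => ⟨hE ((h : Subgroup.zpowers _ = E) ▸ Subgroup.mem_zpowers _), h⟩⟩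

variable (F) in
omit [IsGalois ℚ F] in
/-- A natural number divisible by every prime with nontrivial inertia. -/
theorem exists_unramified : ∃ m : ℕ, m ≠ 0 ∧ ∀ (q : ℕ) (P : Ideal (𝓞 F)), q.Prime →
    P.IsMaximal → (q : 𝓞 F) ∈ P → ¬ q ∣ m →
    ∀ σ : F ≃ₐ[ℚ] F, (∀ y : 𝓞 F, σ • y - y ∈ P) → σ = 1 := by
  have hex : ∀ σ : F ≃ₐ[ℚ] F, σ ≠ 1 → ∃ y : 𝓞 F, σ • y - y ≠ 0 := by
    intro σ hσ
    by_contra hcon
    push Not at hcon
    refine hσ (AlgEquiv.ext fun z => ?_)
    obtain ⟨a, b, hb, rfl⟩ := IsFractionRing.div_surjective (A := 𝓞 F) z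
    rw [map_div₀]
    congr 1 <;>
    · refine congrArg (fun y : 𝓞 F => (y : F)) (sub_eq_zero.mp (hcon _))
  choose y hy using hex
  let δ : 𝓞 F := ∏ σ : F ≃ₐ[ℚ] F, if h : σ = 1 then 1 else σ • y σ h - y σ h
  have hδ : δ ≠ 0 := Finset.prod_ne_zero_iff.mpr fun σ _ => by
    split_ifs with h
    · exact one_ne_zero
    · exact hy σ h
  refine ⟨Ideal.absNorm (Ideal.span {δ}), fun h => hδ ?_, fun q P hq hP hqP hqm σ hσ => ?_⟩
  · exact Ideal.span_singleton_eq_bot.mp (Ideal.absNorm_eq_zero_iff.mp h)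
  by_contra hσ1
  have hδP : δ ∈ P := by
    refine P.mem_of_dvd (Finset.dvd_prod_of_mem _ (Finset.mem_univ σ)) ?_
    rw [dif_neg hσ1]
    exact hσ _
  have hmP : (Ideal.absNorm (Ideal.span {δ}) : 𝓞 F) ∈ P :=
    (Ideal.span_singleton_le_iff_mem _).mpr hδP (Ideal.absNorm_mem _)
  obtain ⟨a, b, hab⟩ := Int.isCoprime_iff_nat_coprime.mpr
    (show Nat.Coprime (q : ℤ).natAbs (Ideal.absNorm (Ideal.span {δ}) : ℤ).natAbs by
      rw [Int.natAbs_natCast, Int.natAbs_natCast]; exact hq.coprime_iff_not_dvd.mpr hqm)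
  refine hP.ne_top ((Ideal.eq_top_iff_one _).mpr ?_)
  have h1 := congrArg (Int.cast : ℤ → 𝓞 F) hab
  push_cast at h1
  rw [← h1]
  exact P.add_mem (P.mul_mem_left _ hqP) (P.mul_mem_left _ hmP)

/-- A system of Frobenius elements outside a finite set of primes. -/
structure FrobSystem (F : Type*) [Field F] [NumberField F] where
  /-- The chosen element. -/
  frob : ℕ → (F ≃ₐ[ℚ] F)
  /-- The excluded primes. -/
  excluded : Finset ℕ
  spec : ∀ q : ℕ, q.Prime → q ∉ excluded → ∃ P : Ideal (𝓞 F), IsFrobPair q P (frob q)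

variable (𝔉 : FrobSystem F)

/-- The primes we sum over. -/
def FrobSystem.Good (q : ℕ) : Prop := q.Prime ∧ q ∉ 𝔉.excluded

/-- The partial sums. -/
def FrobSystem.psum (S : Finset ℕ) (X : Set (F ≃ₐ[ℚ] F)) (s : ℝ) : ℝ :=
  ∑ q ∈ S.filter 𝔉.Good, (conjCount X (𝔉.frob q) : ℝ) * (q : ℝ) ^ (-s)

omit [IsGalois ℚ F] in
theorem FrobSystem.psum_mono {S S' : Finset ℕ} (h : S ⊆ S') (X : Set (F ≃ₐ[ℚ] F)) (s : ℝ) :
    𝔉.psum S X s ≤ 𝔉.psum S' X s :=
  Finset.sum_le_sum_of_subset_of_nonneg (Finset.filter_subset_filter _ h)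
    fun _ _ _ => mul_nonneg (Nat.cast_nonneg _) (Real.rpow_nonneg (Nat.cast_nonneg _) _)

omit [IsGalois ℚ F] in
theorem FrobSystem.psum_subgroup (S : Finset ℕ) (D : Subgroup (F ≃ₐ[ℚ] F)) (s : ℝ) :
    𝔉.psum S (D : Set (F ≃ₐ[ℚ] F)) s =
      ∑ E ∈ Finset.univ.filter (fun E : Subgroup (F ≃ₐ[ℚ] F) => E ≤ D), 𝔉.psum S (gens E) s := by
  simp only [FrobSystem.psum]
  rw [Finset.sum_comm]
  refine Finset.sum_congr rfl fun q _ => ?_
  rw [sum_conjCount, Finset.sum_mul]

/-- The density of degree one primes of the fixed field of `D`. -/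
theorem FrobSystem.exists_bound_subgroup (D : Subgroup (F ≃ₐ[ℚ] F)) :
    ∃ M : ℝ, ∀ s ∈ Set.Ioc (1 : ℝ) 2,
      (∀ S : Finset ℕ, 𝔉.psum S (D : Set (F ≃ₐ[ℚ] F)) s ≤
        Nat.card D * Real.log (1 / (s - 1)) + M) ∧
      ∃ S : Finset ℕ, Nat.card D * Real.log (1 / (s - 1)) - M ≤
        𝔉.psum S (D : Set (F ≃ₐ[ℚ] F)) s := by
  let K := IntermediateField.fixedField D
  have hcount : ∀ q : ℕ, 𝔉.Good q → ∃ T : Finset (HeightOneSpectrum (𝓞 K)),
      (∀ v, v ∈ T ↔ v ∈ degOne D q) ∧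
      conjCount (D : Set (F ≃ₐ[ℚ] F)) (𝔉.frob q) = Nat.card D * T.card := fun q hq => by
    obtain ⟨P, hP⟩ := 𝔉.spec q hq.1 hq.2
    exact hP.exists_count D
  choose T hT hTcard using hcount
  have hsum : ∀ (s : ℝ) (S : Finset ℕ), (h : ∀ q ∈ S, 𝔉.Good q) →
      ∀ U : Finset (HeightOneSpectrum (𝓞 K)),
        U = S.attach.biUnion (fun q => T q.1 (h q.1 q.2)) →
      𝔉.psum S (D : Set (F ≃ₐ[ℚ] F)) s = Nat.card D * ∑ v ∈ U, zN s (primeIdeal v) := by
    intro s S h U hU
    rw [hU, Finset.sum_biUnion, FrobSystem.psum, Finset.filter_true_of_mem h,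
      ← Finset.sum_attach, Finset.mul_sum]
    · refine Finset.sum_congr rfl fun q _ => ?_
      rw [Finset.sum_congr rfl (g := fun _ => (q.1 : ℝ) ^ (-s)) (fun v hv => by
        rw [zN_primeIdeal, show Ideal.absNorm v.asIdeal = q.1 from (hT q.1 (h q.1 q.2) v).mp hv]),
        Finset.sum_const, nsmul_eq_mul, hTcard q.1 (h q.1 q.2)]
      push_cast
      ring
    · intro a _ b _ hab
      rw [Function.onFun, Finset.disjoint_left]
      intro v hva hvb
      exact hab (Subtype.ext (((hT a.1 _ v).mp hva).symm.trans ((hT b.1 _ v).mp hvb)))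
  obtain ⟨M₁, hM₁⟩ := exists_sum_le K
  obtain ⟨M₂, hM₂⟩ := exists_lower_bound K
  set c : ℝ := (Nat.card D : ℝ)
  have hc : (0 : ℝ) ≤ c := Nat.cast_nonneg _
  -- the finitely many excluded primes
  have hex : ∀ q : ℕ, q.Prime → {v : HeightOneSpectrum (𝓞 K) | Ideal.absNorm v.asIdeal = q}.Finite :=
    fun q _ => (Ideal.finite_setOfPred_absNorm_eq (S := 𝓞 K) q).preimage
      (fun v _ w _ h => HeightOneSpectrum.ext h)
  let Bex : Finset (HeightOneSpectrum (𝓞 K)) :=
    (𝔉.excluded.filter Nat.Prime).attach.biUnion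
      fun q => (hex q.1 (Finset.mem_filter.mp q.2).2).toFinset
  refine ⟨max (c * M₁) (c * (M₂ + Bex.card)), fun s hs => ⟨fun S => ?_, ?_⟩⟩
  · calc 𝔉.psum S _ s = 𝔉.psum (S.filter 𝔉.Good) _ s := by
          rw [FrobSystem.psum, FrobSystem.psum, Finset.filter_filter]; simp only [and_self]
      _ = c * _ := hsum s _ (fun q hq => (Finset.mem_filter.mp hq).2) _ rfl
      _ ≤ c * (Real.log (1 / (s - 1)) + M₁) := mul_le_mul_of_nonneg_left (hM₁ s hs _) hc
      _ ≤ _ := by linarith [le_max_left (c * M₁) (c * (M₂ + Bex.card))]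
  · obtain ⟨U, hUp, hU⟩ := hM₂ s hs
    set U₁ := U.filter fun v => Ideal.absNorm v.asIdeal ∉ 𝔉.excluded
    set S := U₁.image fun v => Ideal.absNorm v.asIdeal
    have hgood : ∀ q ∈ S, 𝔉.Good q := fun q hq => by
      obtain ⟨v, hv, rfl⟩ := Finset.mem_image.mp hq
      exact ⟨hUp v (Finset.mem_filter.mp hv).1, (Finset.mem_filter.mp hv).2⟩
    refine ⟨S, ?_⟩
    rw [hsum s S hgood _ rfl]
    have h1 : ∑ v ∈ U₁, zN s (primeIdeal v) ≤
        ∑ v ∈ S.attach.biUnion (fun q => T q.1 (hgood q.1 q.2)), zN s (primeIdeal v) := by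
      refine Finset.sum_le_sum_of_subset_of_nonneg (fun v hv => ?_) fun _ _ _ => zN_nonneg _ _
      exact Finset.mem_biUnion.mpr ⟨⟨_, Finset.mem_image_of_mem _ hv⟩, Finset.mem_attach _ _,
        (hT _ _ v).mpr rfl⟩
    have h2 : ∑ v ∈ U.filter (fun v => ¬ Ideal.absNorm v.asIdeal ∉ 𝔉.excluded),
        zN s (primeIdeal v) ≤ Bex.card := by
      refine (Finset.sum_le_card_nsmul _ _ 1 fun v _ =>
        (zN_primeIdeal_le_half hs.1.le v).trans (by norm_num)).trans ?_
      rw [nsmul_eq_mul, mul_one, Nat.cast_le]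
      refine Finset.card_le_card fun v hv => ?_
      rw [Finset.mem_filter, not_not] at hv
      exact Finset.mem_biUnion.mpr ⟨⟨_, Finset.mem_filter.mpr ⟨hv.2, hUp v hv.1⟩⟩,
        Finset.mem_attach _ _, (hex _ (hUp v hv.1)).mem_toFinset.mpr rfl⟩
    rw [← Finset.sum_filter_add_sum_filter_not U
      (fun v => Ideal.absNorm v.asIdeal ∉ 𝔉.excluded)] at hU
    nlinarith [mul_le_mul_of_nonneg_left h1 hc, mul_le_mul_of_nonneg_left h2 hc,
      mul_le_mul_of_nonneg_left hU hc, le_max_right (c * M₁) (c * (M₂ + Bex.card))]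

/-- The density of the generators of `D`. -/
theorem FrobSystem.exists_bound_gens (D : Subgroup (F ≃ₐ[ℚ] F)) :
    ∃ M : ℝ, ∀ s ∈ Set.Ioc (1 : ℝ) 2,
      (∀ S : Finset ℕ, 𝔉.psum S (gens D) s ≤
        Nat.card (gens D) * Real.log (1 / (s - 1)) + M) ∧
      ∃ S : Finset ℕ, Nat.card (gens D) * Real.log (1 / (s - 1)) - M ≤
        𝔉.psum S (gens D) s := by
  induction D using WellFoundedLT.induction with
  | ind D ih =>
    set P := Finset.univ.filter fun E : Subgroup (F ≃ₐ[ℚ] F) => E < D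
    have hdec : (Finset.univ.filter fun E : Subgroup (F ≃ₐ[ℚ] F) => E ≤ D) = insert D P := by
      ext E; simp [P, le_iff_lt_or_eq, or_comm]
    have hDP : D ∉ P := by simp [P]
    choose M hM using fun E : P => ih E.1 (Finset.mem_filter.mp E.2).2
    obtain ⟨M₀, hM₀⟩ := 𝔉.exists_bound_subgroup D
    refine ⟨M₀ + ∑ E : P, M E, fun s hs => ?_⟩
    set L := Real.log (1 / (s - 1))
    have hcard : (Nat.card D : ℝ) = Nat.card (gens D) + ∑ E : P, (Nat.card (gens E.1) : ℝ) := by
      rw [natCard_eq_sum_gens, hdec, Finset.sum_insert hDP, Finset.sum_coe_sort P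
        (fun E => (Nat.card (gens E) : ℝ))]
    have hps : ∀ S, 𝔉.psum S (D : Set (F ≃ₐ[ℚ] F)) s =
        𝔉.psum S (gens D) s + ∑ E : P, 𝔉.psum S (gens E.1) s := fun S => by
      rw [FrobSystem.psum_subgroup, hdec, Finset.sum_insert hDP,
        Finset.sum_coe_sort P (fun E => 𝔉.psum S (gens E) s)]
    refine ⟨fun S => ?_, ?_⟩
    · choose U hU using fun E : P => (hM E s hs).2
      set S' := S ∪ Finset.univ.biUnion U
      have h1 : ∑ E : P, ((Nat.card (gens E.1) : ℝ) * L - M E) ≤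
          ∑ E : P, 𝔉.psum S' (gens E.1) s := Finset.sum_le_sum fun E _ => (hU E).trans
            (𝔉.psum_mono ((Finset.subset_biUnion_of_mem U (Finset.mem_univ E)).trans
              Finset.subset_union_right) _ _)
      rw [Finset.sum_sub_distrib, ← Finset.sum_mul] at h1
      have h2 := (hM₀ s hs).1 S'
      rw [hps, hcard, add_mul] at h2
      linarith [𝔉.psum_mono (Finset.subset_union_left : S ⊆ S') (gens D) s]
    · obtain ⟨S, hS⟩ := (hM₀ s hs).2
      refine ⟨S, ?_⟩
      have h1 : ∑ E : P, 𝔉.psum S (gens E.1) s ≤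
          ∑ E : P, ((Nat.card (gens E.1) : ℝ) * L + M E) :=
        Finset.sum_le_sum fun E _ => (hM E s hs).1 S
      rw [Finset.sum_add_distrib, ← Finset.sum_mul] at h1
      rw [hps, hcard, add_mul] at hS
      linarith

/-- Frobenius' density theorem. -/
theorem FrobSystem.exists_generating (σ : F ≃ₐ[ℚ] F) (S₀ : Finset ℕ) :
    ∃ q : ℕ, q.Prime ∧ q ∉ S₀ ∧ q ∉ 𝔉.excluded ∧
      ∃ x : F ≃ₐ[ℚ] F, Subgroup.zpowers (x * 𝔉.frob q * x⁻¹) = Subgroup.zpowers σ := by
  by_contra hcon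
  push Not at hcon
  set D := Subgroup.zpowers σ
  obtain ⟨M, hM⟩ := 𝔉.exists_bound_gens D
  have hpos : (1 : ℝ) ≤ Nat.card (gens D) := by
    have : Nonempty (gens D) := ⟨⟨σ, rfl⟩⟩
    exact_mod_cast Nat.card_pos
  set B : ℝ := (Fintype.card (F ≃ₐ[ℚ] F) : ℝ) * S₀.card
  set L : ℝ := max (M + B + 1) 1
  set s : ℝ := 1 + Real.exp (-L)
  have hs : s ∈ Set.Ioc (1 : ℝ) 2 := by
    refine ⟨lt_add_of_pos_right _ (Real.exp_pos _), ?_⟩
    have : Real.exp (-L) ≤ 1 := Real.exp_le_one_iff.mpr (by linarith [le_max_right (M + B + 1) 1])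
    linarith
  obtain ⟨S, hS⟩ := (hM s hs).2
  have hlog : Real.log (1 / (s - 1)) = L := by
    rw [show s - 1 = Real.exp (-L) by ring, one_div, ← Real.exp_neg, neg_neg, Real.log_exp]
  have hle : 𝔉.psum S (gens D) s ≤ B := by
    calc 𝔉.psum S (gens D) s
        ≤ ∑ q ∈ (S.filter 𝔉.Good).filter (fun q => q ∈ S₀), (Fintype.card (F ≃ₐ[ℚ] F) : ℝ) := by
          rw [Finset.sum_filter]
          refine Finset.sum_le_sum fun q hq => ?_
          have hgood := (Finset.mem_filter.mp hq).2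
          split_ifs with h
          · refine (mul_le_mul (Nat.cast_le.mpr (conjCount_le _ _)) ?_
              (Real.rpow_nonneg (Nat.cast_nonneg _) _) (Nat.cast_nonneg _)).trans_eq (mul_one _)
            exact Real.rpow_le_one_of_one_le_of_nonpos (by exact_mod_cast hgood.1.one_lt.le)
              (by linarith [hs.1])
          · have : conjCount (gens D) (𝔉.frob q) = 0 := by
              rw [conjCount, Finset.card_eq_zero, Finset.filter_eq_empty_iff]
              exact fun {x} _ hx => hcon q hgood.1 h hgood.2 x hx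
            rw [this, Nat.cast_zero, zero_mul]
      _ ≤ B := by
          rw [Finset.sum_const, nsmul_eq_mul, mul_comm]
          exact mul_le_mul_of_nonneg_left (Nat.cast_le.mpr (Finset.card_le_card fun q hq =>
            (Finset.mem_filter.mp hq).2)) (Nat.cast_nonneg _)
  rw [hlog] at hS
  nlinarith [le_max_left (M + B + 1) 1, le_max_right (M + B + 1) 1]

end FA.Density
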