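import Fermat.Agent.ExtVanish.Euler
import Fermat.Agent.ExtVanish.Residue
import Mathlib.RingTheory.Invariant.Basic
import Mathlib.FieldTheory.Galois.IsGaloisGroup
import Mathlib.RingTheory.IntegralDomain

/-!
# Degree one primes of fixed fields

For a finite Galois extension `F` of `ℚ`, a prime `q` with a Frobenius element `g` and a subgroup
`D`, there are exactly `#{x | x⁻¹ g x ∈ D} / |D|` primes of degree one over `q` in the fixed field
of `D`.
-/

set_option autoImplicit false

noncomputable section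

open NumberField IsDedekindDomain
open scoped Pointwise Classical

namespace FA.Density

variable {F : Type*} [Field F] [NumberField F] [IsGalois ℚ F]

local notation "G" => F ≃ₐ[ℚ] F

/-- An unramified prime with a Frobenius element. -/
structure IsFrobPair (q : ℕ) (P : Ideal (𝓞 F)) (g : F ≃ₐ[ℚ] F) : Prop where
  prime : q.Prime
  isMaximal : P.IsMaximal
  mem : (q : 𝓞 F) ∈ P
  inertia : ∀ σ : F ≃ₐ[ℚ] F, (∀ y : 𝓞 F, σ • y - y ∈ P) → σ = 1
  frob : ∀ y : 𝓞 F, g • y - y ^ q ∈ P

omit [IsGalois ℚ F] in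
theorem IsFrobPair.conj {q : ℕ} {P : Ideal (𝓞 F)} {g : G} (h : IsFrobPair q P g) (x : G) :
    IsFrobPair q (x • P) (x * g * x⁻¹) := by
  have hmem : ∀ y : 𝓞 F, y ∈ x • P ↔ x⁻¹ • y ∈ P := fun y =>
    Ideal.mem_pointwise_smul_iff_inv_smul_mem
  refine ⟨h.prime, ?_, ?_, fun σ hσ => ?_, fun y => ?_⟩
  · have := h.isMaximal
    rw [Ideal.pointwise_smul_eq_comap]
    exact Ideal.comap_isMaximal_of_surjective _ (MulSemiringAction.toRingEquiv G (𝓞 F) x⁻¹).surjective
  · rw [hmem]
    have e : x⁻¹ • (q : 𝓞 F) = q := map_natCast (MulSemiringAction.toRingHom G (𝓞 F) x⁻¹) q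
    rw [e]
    exact h.mem
  · have h1 : x⁻¹ * σ * x = 1 := h.inertia _ fun y => by
      have := (hmem _).mp (hσ (x • y))
      rwa [smul_sub, inv_smul_smul, ← mul_smul, ← mul_smul] at this
    calc σ = x * (x⁻¹ * σ * x) * x⁻¹ := by group
      _ = 1 := by rw [h1]; group
  · rw [hmem, smul_sub, smul_pow', ← mul_smul, show x⁻¹ * (x * g * x⁻¹) = g * x⁻¹ by group,
      mul_smul]
    exact h.frob _

variable (D : Subgroup (F ≃ₐ[ℚ] F))

local notation "E" => IntermediateField.fixedField D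

instance : SMulCommClass D (𝓞 (IntermediateField.fixedField D)) (𝓞 F) := ⟨fun d x y => by
  rw [Algebra.smul_def, Algebra.smul_def, smul_mul']
  congr 1
  refine RingOfIntegers.ext ?_
  exact (x : E).2 d⟩

instance : Algebra.IsInvariant (𝓞 (IntermediateField.fixedField D)) (𝓞 F) D := ⟨fun b hb => by
  have hmem : (b : F) ∈ E := fun d => congrArg (fun z : 𝓞 F => (z : F)) (hb d)
  exact ⟨⟨⟨(b : F), hmem⟩, (isIntegral_algebraMap_iff (B := F)
    (algebraMap E F).injective).mp b.2⟩, RingOfIntegers.ext rfl⟩⟩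

variable {D} {q : ℕ} {P : Ideal (𝓞 F)} {g : F ≃ₐ[ℚ] F}

/-- The prime of the fixed field below `P`. -/
def below (D : Subgroup (F ≃ₐ[ℚ] F)) (P : Ideal (𝓞 F)) : Ideal (𝓞 (IntermediateField.fixedField D)) :=
  P.comap (algebraMap (𝓞 (IntermediateField.fixedField D)) (𝓞 F))

/-- Over a prime of degree one, the decomposition group lies in `D`. -/
theorem IsFrobPair.stabilizer_le (h : IsFrobPair q P g) (hv : Ideal.absNorm (below D P) = q)
    {z : G} (hz : z • P = P) : z ∈ D := by
  have := h.isMaximal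
  have : (below D P).IsMaximal :=
    Ideal.isMaximal_comap_of_isIntegral_of_isMaximal (R := 𝓞 E) P
  have : P.LiesOver (below D P) := ⟨rfl⟩
  let e : (𝓞 F ⧸ P) ≃ₐ[𝓞 E ⧸ below D P] (𝓞 F ⧸ P) :=
    AlgEquiv.ofRingEquiv
      (f := Ideal.quotientEquiv P P (MulSemiringAction.toRingEquiv G (𝓞 F) z) hz.symm) (by
      intro a
      obtain ⟨x, rfl⟩ := Ideal.Quotient.mk_surjective a
      obtain ⟨n, hn⟩ := FA.Ext.exists_nat_sub_mem h.prime hv x
      rw [← Ideal.Quotient.eq, map_natCast] at hn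
      rw [hn, map_natCast, map_natCast])
  obtain ⟨⟨d, hd⟩, hde⟩ := Ideal.Quotient.stabilizerHom_surjective D (below D P) P e
  suffices h1 : (d : G)⁻¹ * z = 1 by
    rw [inv_mul_eq_one] at h1
    exact h1 ▸ d.2
  refine h.inertia _ fun y => ?_
  have h2 : (d : G) • y - z • y ∈ P := by
    rw [← Ideal.Quotient.eq]
    exact AlgEquiv.congr_fun hde (Ideal.Quotient.mk P y)
  have hdP : (d : G)⁻¹ • P = P := by
    rw [inv_smul_eq_iff]; exact hd.symm
  have h3 := Ideal.smul_mem_pointwise_smul (d : G)⁻¹ _ _ h2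
  rw [hdP, smul_sub, inv_smul_smul, ← mul_smul] at h3
  rw [← Ideal.neg_mem_iff, neg_sub]
  exact h3

/-- A Frobenius element in `D` forces degree one. -/
theorem IsFrobPair.absNorm_below (h : IsFrobPair q P g) (hg : g ∈ D) :
    Ideal.absNorm (below D P) = q := by
  have := h.isMaximal
  set v := below D P
  have hvmax : v.IsMaximal := Ideal.isMaximal_comap_of_isIntegral_of_isMaximal (R := 𝓞 E) P
  have hqv : (q : 𝓞 E) ∈ v := by
    show algebraMap (𝓞 E) (𝓞 F) q ∈ P
    rw [map_natCast]; exact h.mem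
  have hfix : ∀ y : 𝓞 E, y ^ q - y ∈ v := fun y => by
    show algebraMap (𝓞 E) (𝓞 F) (y ^ q - y) ∈ P
    have e : g • algebraMap (𝓞 E) (𝓞 F) y = algebraMap (𝓞 E) (𝓞 F) y :=
      RingOfIntegers.ext ((y : E).2 ⟨g, hg⟩)
    have h1 := P.neg_mem (h.frob (algebraMap (𝓞 E) (𝓞 F) y))
    rwa [neg_sub, e, ← map_pow, ← map_sub] at h1
  have hv0 : v ≠ ⊥ := Ring.ne_bot_of_isMaximal_of_not_isField hvmax (RingOfIntegers.not_isField _)
  have : Finite (𝓞 E ⧸ v) := Ideal.finiteQuotientOfFreeOfNeBot v hv0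
  let _ : Field (𝓞 E ⧸ v) := Ideal.Quotient.field v
  have hN : Ideal.absNorm v = Nat.card (𝓞 E ⧸ v) := by
    rw [Ideal.absNorm_apply, Submodule.cardQuot_apply]
  have hle : Ideal.absNorm v ≤ q := by
    obtain ⟨u, hu⟩ := IsCyclic.exists_generator (α := (𝓞 E ⧸ v)ˣ)
    have hord : orderOf u = Ideal.absNorm v - 1 := by
      rw [orderOf_eq_card_of_forall_mem_zpowers hu, Nat.card_units, ← hN]
    obtain ⟨y, hy⟩ := Ideal.Quotient.mk_surjective (u : 𝓞 E ⧸ v)
    have h1 : u ^ (q - 1) = 1 := by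
      refine mul_right_cancel (b := u) ?_
      rw [← pow_succ, show q - 1 + 1 = q by have := h.prime.pos; omega, one_mul]
      refine Units.ext ?_
      rw [Units.val_pow_eq_pow_val, ← hy, ← map_pow, Ideal.Quotient.eq]
      exact hfix y
    have h2 : orderOf u ≤ q - 1 :=
      Nat.le_of_dvd (by have := h.prime.two_le; omega) (orderOf_dvd_of_pow_eq_one h1)
    rw [hord] at h2
    have := h.prime.two_le
    omega
  have hdvd : Ideal.absNorm v ∣ q ^ Module.finrank ℚ E := by
    have h1 : Ideal.absNorm (Ideal.span {(q : 𝓞 E)}) = q ^ Module.finrank ℚ E := by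
      rw [Ideal.absNorm_span_singleton, show (q : 𝓞 E) = algebraMap ℤ (𝓞 E) q by simp,
        Algebra.norm_algebraMap]
      simp [Int.natAbs_pow, RingOfIntegers.rank]
    rw [← h1]
    exact map_dvd Ideal.absNorm (Ideal.dvd_iff_le.mpr ((Ideal.span_singleton_le_iff_mem _).mpr hqv))
  obtain ⟨k, -, hk⟩ := (Nat.dvd_prime_pow h.prime).mp hdvd
  rw [hk] at hle ⊢
  rcases (show k = 0 ∨ k = 1 ∨ 2 ≤ k by omega) with rfl | rfl | hk2
  · exact absurd (Ideal.absNorm_eq_one_iff.mp (by rw [hk, pow_zero])) hvmax.ne_top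
  · exact pow_one q
  · have := Nat.pow_le_pow_right h.prime.one_lt.le hk2
    nlinarith [h.prime.two_le]

/-- Degree one primes over `q`. -/
def degOne (D : Subgroup (F ≃ₐ[ℚ] F)) (q : ℕ) :
    Set (HeightOneSpectrum (𝓞 (IntermediateField.fixedField D))) :=
  {v | Ideal.absNorm v.asIdeal = q}

variable (D) in
/-- The conjugates of `g` inside `D` are counted by the degree one primes. -/
theorem IsFrobPair.exists_count (h : IsFrobPair q P g) :
    ∃ T : Finset (HeightOneSpectrum (𝓞 (IntermediateField.fixedField D))),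
      (∀ v, v ∈ T ↔ v ∈ degOne D q) ∧
      (Finset.univ.filter fun x : G => x * g * x⁻¹ ∈ D).card = Nat.card D * T.card := by
  have : IsGaloisGroup G ℤ (𝓞 F) := IsGaloisGroup.of_isFractionRing G ℤ (𝓞 F) ℚ F
  let φ : G → HeightOneSpectrum (𝓞 E) := fun x => by
    have := (h.conj x).isMaximal
    have hm : (below D (x • P)).IsMaximal :=
      Ideal.isMaximal_comap_of_isIntegral_of_isMaximal (R := 𝓞 E) (x • P)
    exact ⟨below D (x • P), hm.isPrime,
      Ring.ne_bot_of_isMaximal_of_not_isField hm (RingOfIntegers.not_isField _)⟩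
  set X := Finset.univ.filter fun x : G => x * g * x⁻¹ ∈ D
  have hX : ∀ x, x ∈ X ↔ φ x ∈ degOne D q := fun x => by
    rw [Finset.mem_filter]
    refine ⟨fun hx => (h.conj x).absNorm_below hx.2, fun hx => ⟨Finset.mem_univ _, ?_⟩⟩
    refine (h.conj x).stabilizer_le hx ?_
    rw [mul_smul, mul_smul, inv_smul_smul]
    congr 1
    -- `g` stabilises `P`
    have := h.isMaximal
    refine ((inferInstance : P.IsMaximal).eq_of_le ?_ fun y hy => ?_).symm
    · have := (h.conj g).isMaximal
      exact Ideal.IsPrime.ne_top inferInstance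
    · rw [Ideal.mem_pointwise_smul_iff_inv_smul_mem]
      have h1 : g • (g⁻¹ • y) - (g⁻¹ • y) ^ q ∈ P := h.frob _
      rw [smul_inv_smul] at h1
      have h2 := P.sub_mem hy h1
      rw [sub_sub_cancel] at h2
      exact h.isMaximal.isPrime.mem_of_pow_mem q h2
  refine ⟨X.image φ, fun v => ⟨fun hv => ?_, fun hv => ?_⟩, ?_⟩
  · obtain ⟨x, hx, rfl⟩ := Finset.mem_image.mp hv
    exact (hX x).mp hx
  · have := v.isMaximal
    obtain ⟨Q, hQ, hQv⟩ := Ideal.exists_maximal_ideal_liesOver_of_isIntegral (S := 𝓞 F) v.asIdeal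
    have := h.isMaximal
    have hqQ : (q : 𝓞 F) ∈ Q := by
      have h1 : (q : 𝓞 E) ∈ v.asIdeal := FA.Ext.natCast_mem_of_absNorm_eq hv
      rw [Q.over_def v.asIdeal, Ideal.mem_comap, map_natCast] at h1
      exact h1
    have hsame : ∀ R : Ideal (𝓞 F), R.IsMaximal → (q : 𝓞 F) ∈ R →
        R.under ℤ = Ideal.span {(q : ℤ)} := fun R hR hqR => by
      refine (Ideal.IsMaximal.eq_of_le (PrincipalIdealRing.isMaximal_of_irreducible
        (Nat.prime_iff_prime_int.mp h.prime).irreducible) (Ideal.IsPrime.ne_top inferInstance) ?_).symm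
      rw [Ideal.span_singleton_le_iff_mem, Ideal.mem_comap]
      simpa using hqR
    obtain ⟨x, hx⟩ := Algebra.IsInvariant.exists_smul_of_under_eq ℤ (𝓞 F) G P Q
      ((hsame P h.isMaximal h.mem).trans (hsame Q hQ hqQ).symm)
    have hxv : φ x = v := HeightOneSpectrum.ext (by
      show below D (x • P) = v.asIdeal
      rw [← hx]
      exact (Q.over_def v.asIdeal).symm)
    exact Finset.mem_image.mpr ⟨x, (hX x).mpr (hxv ▸ hv), hxv⟩
  · rw [Finset.card_eq_sum_card_image φ X, Finset.sum_const_nat (m := Nat.card D), mul_comm]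
    intro v hv
    obtain ⟨x, hx, rfl⟩ := Finset.mem_image.mp hv
    have hfib : X.filter (fun y => φ y = φ x) = (Finset.univ : Finset D).image fun d : D =>
        (d : G) * x := by
      ext y
      simp only [Finset.mem_filter, Finset.mem_image, Finset.mem_univ, true_and]
      constructor
      · rintro ⟨hy, hyx⟩
        have := (h.conj x).isMaximal
        have := (h.conj y).isMaximal
        obtain ⟨d, hd⟩ := Algebra.IsInvariant.exists_smul_of_under_eq (𝓞 E) (𝓞 F) D
          (x • P) (y • P) (congrArg HeightOneSpectrum.asIdeal hyx).symm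
        have hz : x⁻¹ * (d : G)⁻¹ * y ∈ MulAction.stabilizer G P := by
          rw [MulAction.mem_stabilizer_iff, mul_smul, mul_smul, hd]
          show x⁻¹ • ((d : G)⁻¹ • ((d : G) • (x • P))) = P
          rw [inv_smul_smul, inv_smul_smul]
        have hzD : x * (x⁻¹ * (d : G)⁻¹ * y) * x⁻¹ ∈ D := (h.conj x).stabilizer_le ((hX x).mp hx) (by
          rw [mul_smul, mul_smul, inv_smul_smul, MulAction.mem_stabilizer_iff.mp hz])
        refine ⟨⟨(d : G) * (x * (x⁻¹ * (d : G)⁻¹ * y) * x⁻¹), D.mul_mem d.2 hzD⟩, ?_⟩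
        group
      · rintro ⟨d, rfl⟩
        have he : φ ((d : G) * x) = φ x := HeightOneSpectrum.ext (by
          show below D (((d : G) * x) • P) = below D (x • P)
          ext z
          simp only [below, Ideal.mem_comap]
          rw [mul_smul, Ideal.mem_pointwise_smul_iff_inv_smul_mem]
          have e : (d : G)⁻¹ • algebraMap (𝓞 E) (𝓞 F) z = algebraMap (𝓞 E) (𝓞 F) z :=
            RingOfIntegers.ext ((z : E).2 d⁻¹)
          rw [e])
        exact ⟨(hX _).mpr (he.symm ▸ (hX x).mp hx), he⟩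
    rw [hfib, Finset.card_image_of_injective _ fun a b hab => Subtype.ext (mul_right_cancel hab),
      Finset.card_univ, Nat.card_eq_fintype_card]

end FA.Density
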